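/-
Cluster G (S36): **the frozen statement of S36, as the Prop `S36Statement`** (helper3).

`s36_final : Fermat.Agent.S36B.S36Statement`, from the END junction
`s36Statement_of_coreBundleLevel` (`S36/G/CoreBundleLevel.lean`) and the bundle of the modular
world `nonempty_coreBundle` (`S36/G/CoreBundleInst.lean`).  Cited by `Fermat/Agent/S36.lean`
and by `Fermat/Agent/S58.lean` (through `s58_of_s36`).
-/
import Mathlib
import Fermat.Agent.S36.G.CoreBundleLevel
import Fermat.Agent.S36.G.CoreBundleInst

set_option autoImplicit false

namespace Fermat.Agent.S36G

/-- **S36** (Carayol's theorem in the form of the frozen statement). -/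
theorem s36_final : Fermat.Agent.S36B.S36Statement :=
  s36Statement_of_coreBundleLevel fun q M₀ _ _ _ hq hqM hgood =>
    nonempty_coreBundle q M₀ hq hqM hgood

end Fermat.Agent.S36G
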